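import Mathlib

set_option autoImplicit false

/-!
# A consequence of Gauss's lemma

If `ψ ∈ ℤ[X]` has prime leading coefficient, then two non-conjugate roots of `ψ` cannot be both
non-integral.
-/

open Polynomial

namespace Fermat.Agent.S13Lib

variable {K : Type*} [Field K] [CharZero K]

/-- A primitive integral polynomial associated to the minimal polynomial. -/
lemma exists_primitive [Algebra ℚ K] {x : K} (hx : IsIntegral ℚ x) :
    ∃ m : ℤ[X], m.IsPrimitive ∧ Associated (m.map (Int.castRingHom ℚ)) (minpoly ℚ x) := by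
  have hq0 : minpoly ℚ x ≠ 0 := minpoly.ne_zero hx
  obtain ⟨b, hb⟩ := IsLocalization.integerNormalization_map_to_map (nonZeroDivisors ℤ)
    (S := ℚ) (minpoly ℚ x)
  set n := IsLocalization.integerNormalization (nonZeroDivisors ℤ) (minpoly ℚ x) with hn
  have hb0 : ((b : ℤ) : ℚ) ≠ 0 := by
    have := nonZeroDivisors.ne_zero b.2
    exact_mod_cast this
  have halg : algebraMap ℤ ℚ = Int.castRingHom ℚ := rfl
  rw [halg] at hb
  have hb' : n.map (Int.castRingHom ℚ) = C ((b : ℤ) : ℚ) * minpoly ℚ x := by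
    rw [hb]
    ext i
    simp
  have hn0 : n ≠ 0 := by
    intro h
    rw [h, Polynomial.map_zero] at hb'
    rcases mul_eq_zero.mp hb'.symm with h1 | h1
    · exact hb0 (by simpa using h1)
    · exact hq0 h1
  refine ⟨n.primPart, n.isPrimitive_primPart, ?_⟩
  have hc0 : ((n.content : ℤ) : ℚ) ≠ 0 := by
    have : n.content ≠ 0 := by rwa [Ne, content_eq_zero_iff]
    exact_mod_cast this
  have h1 : C ((n.content : ℤ) : ℚ) * n.primPart.map (Int.castRingHom ℚ) =
      C ((b : ℤ) : ℚ) * minpoly ℚ x := by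
    rw [← hb']
    conv_rhs => rw [n.eq_C_content_mul_primPart]
    rw [Polynomial.map_mul, Polynomial.map_C]
    rfl
  have hu1 : IsUnit (C ((n.content : ℤ) : ℚ)) := isUnit_C.mpr (isUnit_iff_ne_zero.mpr hc0)
  have hu2 : IsUnit (C ((b : ℤ) : ℚ)) := isUnit_C.mpr (isUnit_iff_ne_zero.mpr hb0)
  have h2 : Associated (C ((n.content : ℤ) : ℚ) * n.primPart.map (Int.castRingHom ℚ))
      (n.primPart.map (Int.castRingHom ℚ)) := (associated_isUnit_mul_left_iff hu1).mpr
        (Associated.refl _)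
  have h3 : Associated (C ((b : ℤ) : ℚ) * minpoly ℚ x) (minpoly ℚ x) :=
    (associated_isUnit_mul_left_iff hu2).mpr (Associated.refl _)
  exact (h2.symm.trans (h1 ▸ Associated.refl _)).trans h3

lemma isIntegral_of_isUnit_leadingCoeff {m : ℤ[X]} {x : K} (hm : aeval x m = 0)
    (hu : IsUnit m.leadingCoeff) : IsIntegral ℤ x := by
  rcases Int.isUnit_iff.mp hu with h | h
  · exact ⟨m, h, hm⟩
  · exact ⟨-m, by rw [Monic, leadingCoeff_neg, h]; norm_num, by
      have : eval₂ (algebraMap ℤ K) x (-m) = aeval x (-m) := rfl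
      rw [this, map_neg, hm, neg_zero]⟩

/-- Main lemma. -/
theorem isIntegral_or_isIntegral [Algebra ℚ K] {ψ : ℤ[X]} {p : ℕ} (hp : p.Prime)
    (hψ : ψ.leadingCoeff ∣ (p : ℤ)) (hψ0 : ψ ≠ 0) {x y : K} (hx : aeval x ψ = 0)
    (hy : aeval y ψ = 0) (hxy : minpoly ℚ x ≠ minpoly ℚ y) :
    IsIntegral ℤ x ∨ IsIntegral ℤ y := by
  have hψQ : ψ.map (Int.castRingHom ℚ) ≠ 0 := by
    rwa [Ne, Polynomial.map_eq_zero_iff (Int.castRingHom ℚ).injective_int]
  have hroot : ∀ {z : K}, aeval z ψ = 0 → aeval z (ψ.map (Int.castRingHom ℚ)) = 0 := by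
    intro z hz
    have : aeval z (ψ.map (algebraMap ℤ ℚ)) = aeval z ψ := aeval_map_algebraMap ℚ z ψ
    rw [← hz, ← this]; rfl
  have hxi : IsIntegral ℚ x := (isAlgebraic_iff_isIntegral).mp ⟨_, hψQ, hroot hx⟩
  have hyi : IsIntegral ℚ y := (isAlgebraic_iff_isIntegral).mp ⟨_, hψQ, hroot hy⟩
  obtain ⟨mx, hmx, hax⟩ := exists_primitive hxi
  obtain ⟨my, hmy, hay⟩ := exists_primitive hyi
  have hdx := minpoly.dvd ℚ x (hroot hx)
  have hdy := minpoly.dvd ℚ y (hroot hy)
  have hcop : IsCoprime (minpoly ℚ x) (minpoly ℚ y) := by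
    by_cases h : minpoly ℚ x ∣ minpoly ℚ y
    swap
    · exact ((minpoly.irreducible hxi).coprime_iff_not_dvd).mpr h
    · exfalso
      exact hxy (eq_of_monic_of_associated (minpoly.monic hxi) (minpoly.monic hyi)
        ((minpoly.irreducible hxi).associated_of_dvd (minpoly.irreducible hyi) h))
  have hprod : minpoly ℚ x * minpoly ℚ y ∣ ψ.map (Int.castRingHom ℚ) := hcop.mul_dvd hdx hdy
  have hprod' : (mx * my).map (Int.castRingHom ℚ) ∣ ψ.map (Int.castRingHom ℚ) := by
    rw [Polynomial.map_mul]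
    exact ((hax.mul_mul hay).dvd).trans hprod
  have hdvd : mx * my ∣ ψ :=
    (IsPrimitive.Int.dvd_iff_map_cast_dvd_map_cast _ _ (hmx.mul hmy)).mpr hprod'
  obtain ⟨r, hr⟩ := hdvd
  have hlc : mx.leadingCoeff * (my.leadingCoeff * r.leadingCoeff) ∣ (p : ℤ) := by
    rw [← mul_assoc, ← leadingCoeff_mul, ← leadingCoeff_mul, ← hr]; exact hψ
  have hpr : Prime (p : ℤ) := Nat.prime_iff_prime_int.mp hp
  obtain ⟨t, ht⟩ := hlc
  have hz : ∀ {z : K} {m : ℤ[X]}, Associated (m.map (Int.castRingHom ℚ)) (minpoly ℚ z) →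
      aeval z m = 0 := by
    intro z m h
    obtain ⟨c, hc⟩ := h.symm.dvd
    have h1 : aeval z (m.map (algebraMap ℤ ℚ)) = aeval z m := aeval_map_algebraMap ℚ z m
    rw [← h1]
    change aeval z (m.map (Int.castRingHom ℚ)) = 0
    rw [hc, map_mul, minpoly.aeval, zero_mul]
  have hirr := hpr.irreducible
  rw [mul_assoc] at ht
  rcases hirr.isUnit_or_isUnit ht with h | h
  · left
    exact isIntegral_of_isUnit_leadingCoeff (hz hax) h
  · right
    rw [mul_assoc] at h
    exact isIntegral_of_isUnit_leadingCoeff (hz hay) (isUnit_of_mul_isUnit_left h)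

end Fermat.Agent.S13Lib
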