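import Mathlib
import Fermat.Prelude.Def_FLTPrelim_GaloisRep
import Fermat.Agent.QbarInst
import Fermat.Agent.EllTorsion.MulXDivPoly
import Fermat.Agent.EllTorsion.Torsion
import Fermat.Agent.S13Lib.Gauss

set_option autoImplicit false

/-!
# Integrality dichotomy for a Galois-stable subgroup of `E[p]`
-/

open WeierstrassCurve WeierstrassCurve.Affine WeierstrassCurve.Affine.Point
open Polynomial Fermat.Agent.EllTorsion

namespace Fermat.Agent.S13Lib

local notation "Qb" => AlgebraicClosure ℚ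

variable {W₀ : WeierstrassCurve ℤ} {E : WeierstrassCurve ℚ}

lemma map_map_eq (hE : W₀.map (Int.castRingHom ℚ) = E) :
    (E⁄Qb) = W₀.map (Int.castRingHom Qb) := by
  subst hE
  change (W₀.map (Int.castRingHom ℚ)).map (algebraMap ℚ Qb) = _
  rw [WeierstrassCurve.map_map]
  congr 1

lemma isElliptic_of_Δ (hE : W₀.map (Int.castRingHom ℚ) = E) (hΔ : W₀.Δ ≠ 0) : E.IsElliptic := by
  subst hE
  constructor
  rw [WeierstrassCurve.map_Δ]
  exact isUnit_iff_ne_zero.mpr (by simpa using hΔ)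

/-- the abscissa of a nonzero `p`-torsion point is a root of `preΨ' p ∈ ℤ[X]` (`p` odd). -/
lemma aeval_preΨ'_eq_zero (hE : W₀.map (Int.castRingHom ℚ) = E) (hΔ : W₀.Δ ≠ 0) {p : ℕ}
    (hp2 : ¬ Even p) {x y : Qb} {h : (E⁄Qb).Nonsingular x y}
    (hP : p • (Point.some x y h : (E⁄Qb).Point) = 0) :
    aeval x (W₀.preΨ' p) = 0 := by
  have hell := isElliptic_of_Δ hE hΔ
  have hell' : WeierstrassCurve.IsElliptic (E⁄Qb) := isElliptic_baseChange E
  have h1 := (isMulX_Φ_ΨSq (W := (E⁄Qb)) p).eval x y h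
  have h2 : p • (Point.some x y h : (WeierstrassCurve.toAffine (E⁄Qb)).Point) = 0 := hP
  rw [h2] at h1
  have h3 : eval x ((E⁄Qb).ΨSq (p : ℤ)) = 0 := by
    simpa using h1
  rw [map_map_eq hE, WeierstrassCurve.map_ΨSq, WeierstrassCurve.ΨSq_ofNat, if_neg hp2, mul_one,
    Polynomial.map_pow, eval_pow, pow_eq_zero_iff two_ne_zero, eval_map] at h3
  exact h3

lemma point_eq_or_neg {F : Type*} [Field F] [DecidableEq F] {W : Affine F} {x y₁ y₂ : F}
    (h₁ : W.Nonsingular x y₁) (h₂ : W.Nonsingular x y₂) :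
    Point.some x y₁ h₁ = Point.some x y₂ h₂ ∨ Point.some x y₁ h₁ = - Point.some x y₂ h₂ :=
  (X_eq_iff (h₁ := h₁) (h₂ := h₂)).mp rfl

/-- If two points of `E[p]`, the first in a Galois stable submodule `N`, have conjugate
abscissas then the second also is in `N`. -/
lemma mem_of_minpoly_eq {p : ℕ} {N : Submodule (ZMod p) (Submodule.torsionBy ℤ (E⁄Qb).Point p)}
    (hN : IsGaloisStable (K := Qb) ℚ N) {P R : Submodule.torsionBy ℤ (E⁄Qb).Point p} (hP : P ∈ N)
    {x y x' y' : Qb} {h : (E⁄Qb).Nonsingular x y} {h' : (E⁄Qb).Nonsingular x' y'}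
    (eP : (P : (E⁄Qb).Point) = Point.some x y h) (eR : (R : (E⁄Qb).Point) = Point.some x' y' h')
    (hm : minpoly ℚ x = minpoly ℚ x') : R ∈ N := by
  obtain ⟨σ, hσ⟩ := minpoly.exists_algEquiv_of_root (K := ℚ) (L := Qb) (x := x) (y := x')
    (Algebra.IsAlgebraic.isAlgebraic x') (by rw [← hm]; exact minpoly.aeval ℚ x)
  have hσP := hN σ P hP
  have e1 : ((σ • P : Submodule.torsionBy ℤ (E⁄Qb).Point p) : (E⁄Qb).Point) =
      σ • (P : (E⁄Qb).Point) := rfl
  rw [eP, algEquiv_smul_def, Point.map_some] at e1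
  obtain ⟨h3, e2⟩ : ∃ h3 : (E⁄Qb).Nonsingular x' (σ y),
      ((σ • P : Submodule.torsionBy ℤ (E⁄Qb).Point p) : (E⁄Qb).Point) =
        Point.some x' (σ y) h3 := by
    subst hσ
    exact ⟨_, e1⟩
  rcases point_eq_or_neg h3 h' with h4 | h4
  · have : (σ • P) = R := Subtype.ext (by rw [e2, eR, h4])
    rwa [this] at hσP
  · have : (σ • P) = -R := Subtype.ext (by rw [e2, Submodule.coe_neg, eR, h4])
    rw [this] at hσP
    simpa using hσP

/-- **Dichotomy.** For a Galois-stable `N ⊆ E[p]`, either all abscissas of points of `N` or all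
abscissas of points outside `N` are algebraic integers. -/
theorem dichotomy (hE : W₀.map (Int.castRingHom ℚ) = E) (hΔ : W₀.Δ ≠ 0) {p : ℕ} (hp : p.Prime)
    (hp2 : p ≠ 2) {N : Submodule (ZMod p) (Submodule.torsionBy ℤ (E⁄Qb).Point p)}
    (hN : IsGaloisStable (K := Qb) ℚ N) :
    (∀ P ∈ N, ∀ x y h, (P : (E⁄Qb).Point) = Point.some x y h → IsIntegral ℤ x) ∨
    (∀ P ∉ N, ∀ x y h, (P : (E⁄Qb).Point) = Point.some x y h → IsIntegral ℤ x) := by
  by_contra hcon
  push Not at hcon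
  obtain ⟨⟨P, hPN, x, y, h, eP, hx⟩, ⟨R, hRN, x', y', h', eR, hx'⟩⟩ := hcon
  have hodd : ¬ Even p := by
    intro he
    exact hp2 ((Nat.Prime.even_iff hp).mp he)
  have hp0 : ((p : ℕ) : ℤ) ≠ 0 := by exact_mod_cast hp.ne_zero
  have tors : ∀ Q : Submodule.torsionBy ℤ (E⁄Qb).Point p, p • (Q : (E⁄Qb).Point) = 0 := by
    intro Q
    rw [← Nat.cast_smul_eq_nsmul ℤ]
    exact (Submodule.mem_torsionBy_iff _ _).mp Q.2
  have h1 := aeval_preΨ'_eq_zero hE hΔ hodd (by rw [← eP]; exact tors P)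
  have h2 := aeval_preΨ'_eq_zero hE hΔ hodd (by rw [← eR]; exact tors R)
  have hlc : (W₀.preΨ' p).leadingCoeff = (p : ℤ) := by
    rw [WeierstrassCurve.leadingCoeff_preΨ' W₀ hp0, if_neg hodd]
  rcases isIntegral_or_isIntegral hp (ψ := W₀.preΨ' p) (by rw [hlc])
    (WeierstrassCurve.preΨ'_ne_zero W₀ hp0) h1 h2 (fun hm => hRN
      (mem_of_minpoly_eq hN hPN eP eR hm)) with h3 | h3
  · exact hx h3
  · exact hx' h3

end Fermat.Agent.S13Lib
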