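import Mathlib
import Fermat.Agent.LOC.Multiplicative
import Fermat.Agent.EllRed.Equivariance
import Fermat.Agent.QbarInst

set_option autoImplicit false

/-!
# Local structure of `E[p]` at a semistable prime (inertia, kernel of reduction, identity component)
-/

open WeierstrassCurve WeierstrassCurve.Affine WeierstrassCurve.Affine.Point
open Fermat.Agent.RedHom Fermat.Agent.EllRed Fermat.Agent.ECRed Fermat.Agent.LOC
open scoped Pointwise

namespace Fermat.Agent.S13Lib

section

variable {L k : Type*} [Field L] [Field k] {A : ValuationSubring L} {φ : A →+* k} [IsLocalHom φ]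

lemma valuation_eq_one_iff_redTo {a : L} {b : k} (h : RedTo φ a b) : A.valuation a = 1 ↔ b ≠ 0 := by
  have h1 := h.eq_zero_iff
  rw [ValuationSubring.mem_nonunits_iff] at h1
  rw [Ne, h1, not_lt]
  have h2 : A.valuation a ≤ 1 := (A.valuation_le_one_iff a).mpr h.mem
  exact ⟨fun h => h.ge, fun h => le_antisymm h2 h⟩

lemma nonsingular_iff_nonsingAt {V : WeierstrassCurve L} {U : WeierstrassCurve k}
    (h : CurveRed φ V U) {x y : L} {u w : k} (hxy : V.toAffine.Equation x y)
    (hx : RedTo φ x u) (hy : RedTo φ y w) :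
    U.toAffine.Nonsingular u w ↔ NonsingAt A.valuation V x y := by
  have e1 : RedTo φ (2 * y + V.a₁ * x + V.a₃) (2 * w + U.a₁ * u + U.a₃) :=
    (((redTo_ofNat φ 2).mul hy).add (h.a₁.mul hx)).add h.a₃
  have e2 : RedTo φ (3 * x ^ 2 + 2 * V.a₂ * x + V.a₄ - V.a₁ * y)
      (3 * u ^ 2 + 2 * U.a₂ * u + U.a₄ - U.a₁ * w) :=
    (((((redTo_ofNat φ 3).mul (hx.pow 2)).add (((redTo_ofNat φ 2).mul h.a₂).mul hx)).add
      h.a₄)).sub (h.a₁.mul hy)
  rw [NonsingAt, valuation_eq_one_iff_redTo e1, valuation_eq_one_iff_redTo e2, nonsingular_iff]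
  have heq := h.equation hxy hx hy
  constructor
  · rintro ⟨-, h1 | h1⟩
    · right
      intro h0; apply h1; linear_combination -h0
    · left
      intro h0; apply h1; linear_combination h0
  · rintro (h1 | h1)
    · refine ⟨heq, Or.inr fun h0 => h1 ?_⟩
      linear_combination h0
    · refine ⟨heq, Or.inl fun h0 => h1 ?_⟩
      linear_combination -h0

end

section

variable {L : Type*} [Field L] [Algebra ℚ L] [DecidableEq L] [IsAlgClosed L]
  [Algebra.IsAlgebraic ℚ L]

/-- Local structure at a semistable prime. -/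
theorem exists_local {W₀ : WeierstrassCurve ℤ} {E : WeierstrassCurve ℚ}
    (hE : W₀.map (Int.castRingHom ℚ) = E) {q : ℕ} (hq : q.Prime)
    (hss : (q : ℤ) ∣ W₀.Δ → ¬ (q : ℤ) ∣ W₀.c₄) (A : ValuationSubring L) (hA : A.LiesOverPrime q)
    {σ : L ≃ₐ[ℚ] L} (hσ : σ ∈ A.inertiaSubgroupIn ℚ) :
    ∃ E0 : AddSubgroup (E⁄L).Point,
      (∀ P ∈ E0, σ • P - P = 0 ∨ ∃ x y h, σ • P - P = .some x y h ∧ x ∉ A) ∧
      (∀ x y h, x ∉ A → (.some x y h : (E⁄L).Point) ∈ E0) ∧
      (∀ P : (E⁄L).Point, σ • P - P ∈ E0) := by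
  subst hE
  classical
  have hchar : CharZero L := algebraRat.charZero L
  have hcop : ∀ n : ℤ, ¬ (q : ℤ) ∣ n → IsCoprime n (q : ℤ) := fun n hn =>
    ((Nat.prime_iff_prime_int.mp hq).coprime_iff_not_dvd.mpr hn).symm
  have hR := curveRed_int (L := L) (IsLocalRing.residue A) W₀
  refine ⟨Fermat.Agent.RedHom.E0 hR, ?_, ?_, ?_⟩
  · intro P hP
    exact pointRed_zero_right_iff.mp (smul_sub_mem_ker hR hσ hP)
  · intro x y h hx
    exact some_mem_E0_iff.mpr (Or.inl hx)
  · intro P
    by_cases hP : P ∈ Fermat.Agent.RedHom.E0 hR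
    · exact ⟨0, smul_sub_mem_ker hR hσ hP⟩
    rcases P with _ | ⟨x, y, h⟩
    · exact absurd (zero_mem _) hP
    have hx : x ∈ A := by
      by_contra hx
      exact hP (some_mem_E0_iff.mpr (Or.inl hx))
    have hy : y ∈ A := hR.mem_y h.1 hx
    have hns : ¬ NonsingAt A.valuation ((W₀.map (Int.castRingHom ℚ)).baseChange L) x y := by
      intro hns
      exact hP (some_mem_E0_iff.mpr (Or.inr ⟨hx, hy,
        (nonsingular_iff_nonsingAt hR h.1 (redTo_of_mem hx) (redTo_of_mem hy)).mpr hns⟩))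
    have hΔ : (q : ℤ) ∣ W₀.Δ := by
      by_contra hΔ
      apply hns
      refine nonsing_of_Δ (intCoeff_baseChange_int W₀ _) ?_ h.1
        ((A.valuation_le_one_iff x).mpr hx) ((A.valuation_le_one_iff y).mpr hy)
      rw [baseChange_int_Δ]
      exact valuation_int_eq_one A hA (hcop _ hΔ)
    have hc4 : A.valuation ((W₀.map (Int.castRingHom ℚ)).baseChange L).c₄ = 1 := by
      rw [baseChange_int_c₄]
      exact valuation_int_eq_one A hA (hcop _ (hss hΔ))
    obtain ⟨h', e'⟩ : ∃ h', σ • (Point.some x y h : ((W₀.map (Int.castRingHom ℚ))⁄L).Point) =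
      Point.some (σ x) (σ y) h' := ⟨_, rfl⟩
    have key := sub_nonsingAt_of_node (v := A.valuation)
      (W := (W₀.map (Int.castRingHom ℚ)).baseChange L) two_ne_zero
      (intCoeff_baseChange_int W₀ _) hc4
      (σ : L →+* L) (fun x hx => inertia_sub A hσ hx)
      (decomposition_valuation A (mem_decomposition_of_inertia A hσ))
      (by rw [baseChange_int_a₁]; exact map_intCast σ _)
      (by rw [baseChange_int_a₂]; exact map_intCast σ _)
      (by rw [baseChange_int_a₃]; exact map_intCast σ _)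
      (by rw [baseChange_int_a₄]; exact map_intCast σ _)
      h h'
      ((A.valuation_le_one_iff x).mpr hx) ((A.valuation_le_one_iff y).mpr hy) hns
    rw [e']
    rcases key with h0 | ⟨x₃, y₃, h₃, e, hn⟩
    · exact ⟨0, pointRed_zero_right_iff.mpr (Or.inl h0)⟩
    · have e2 : (Point.some (σ x) (σ y) h' - Point.some x y h :
        ((W₀.map (Int.castRingHom ℚ))⁄L).Point) = Point.some x₃ y₃ h₃ := e
      rw [e2]
      by_cases hx₃ : x₃ ∈ A
      · have hy₃ := hR.mem_y h₃.1 hx₃
        exact some_mem_E0_iff.mpr (Or.inr ⟨hx₃, hy₃,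
          (nonsingular_iff_nonsingAt hR h₃.1 (redTo_of_mem hx₃) (redTo_of_mem hy₃)).mpr
            (hn ((A.valuation_le_one_iff x₃).mpr hx₃) ((A.valuation_le_one_iff y₃).mpr hy₃))⟩)
      · exact some_mem_E0_iff.mpr (Or.inl hx₃)

end

end Fermat.Agent.S13Lib
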