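import Mathlib
import Fermat.Agent.S13Lib.Dichotomy
import Fermat.Agent.S13Lib.Local
import Fermat.Agent.LOC.Minkowski
import Fermat.Agent.EllTorsion.Frey

set_option autoImplicit false

/-!
# Reducible `E[p]` for a semistable curve: the sub or the quotient is a trivial Galois module
-/

open WeierstrassCurve WeierstrassCurve.Affine WeierstrassCurve.Affine.Point
open Fermat.Agent.EllTorsion

namespace Fermat.Agent.S13Lib

section LinAlg

variable {F V : Type*} [Field F] [AddCommGroup V] [Module F V]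

lemma finrank_eq_one_of_ne (hV : Module.finrank F V = 2) {N : Submodule F V} (hb : N ≠ ⊥)
    (ht : N ≠ ⊤) : Module.finrank F N = 1 := by
  have hfin : FiniteDimensional F V := FiniteDimensional.of_finrank_pos (by omega)
  have h1 := Submodule.finrank_lt ht
  have h2 := (Submodule.one_le_finrank_iff).mpr hb
  omega

lemma le_of_mem_of_mem (hV : Module.finrank F V = 2) {N : Submodule F V} (hb : N ≠ ⊥)
    (ht : N ≠ ⊤) {Q : V} (hQ : Q ≠ 0) (hQN : Q ∈ N) {S : Submodule F V} (hQS : Q ∈ S) : N ≤ S := by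
  have hfin : FiniteDimensional F V := FiniteDimensional.of_finrank_pos (by omega)
  have h1 : Submodule.span F {Q} ≤ N := by
    rw [Submodule.span_singleton_le_iff_mem]; exact hQN
  have h2 : Submodule.span F {Q} = N := by
    apply Submodule.eq_of_le_of_finrank_eq h1
    rw [finrank_span_singleton hQ, finrank_eq_one_of_ne hV hb ht]
  rw [← h2, Submodule.span_singleton_le_iff_mem]
  exact hQS

lemma eq_top_of_le_of_mem (hV : Module.finrank F V = 2) {N : Submodule F V} (hb : N ≠ ⊥)
    {Q : V} (hQN : Q ∉ N) {S : Submodule F V} (hNS : N ≤ S) (hQS : Q ∈ S) : S = ⊤ := by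
  have hfin : FiniteDimensional F V := FiniteDimensional.of_finrank_pos (by omega)
  have h1 : N < S := lt_of_le_of_ne hNS (by rintro rfl; exact hQN hQS)
  have h2 := Submodule.finrank_lt_finrank_of_lt h1
  have h3 := (Submodule.one_le_finrank_iff).mpr hb
  apply Submodule.eq_top_of_finrank_eq
  have h4 := Submodule.finrank_le S
  omega

/-- Case where the kernel of reduction `T` meets `N` trivially. -/
lemma fix_of_disjoint (hV : Module.finrank F V = 2) {N : Submodule F V} (hb : N ≠ ⊥)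
    (ht : N ≠ ⊤) (s : V →+ V) (hsN : ∀ x ∈ N, s x ∈ N) (E0 : Submodule F V) (T : Set V)
    (h1 : ∀ x ∈ E0, s x - x ∈ T) (h3 : ∀ x, s x - x ∈ E0)
    (hTN : ∀ x ∈ T, x ∈ N → x = 0) : ∀ x ∈ N, s x = x := by
  intro x hx
  have hN : s x - x ∈ N := N.sub_mem (hsN x hx) hx
  by_cases hxE : x ∈ E0
  · exact sub_eq_zero.mp (hTN _ (h1 x hxE) hN)
  · by_contra hne
    exact hxE (le_of_mem_of_mem hV hb ht (sub_ne_zero.mpr hne) hN (h3 x) hx)

/-- Case where the kernel of reduction `T` is contained in `N`. -/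
lemma sub_mem_of_le (hV : Module.finrank F V = 2) {N : Submodule F V} (hb : N ≠ ⊥)
    (ht : N ≠ ⊤) (s : V →+ V) (hsN : ∀ x ∈ N, s x ∈ N) (E0 : Submodule F V) (T : Set V)
    (h1 : ∀ x ∈ E0, s x - x ∈ T) (h2 : T ⊆ E0) (h3 : ∀ x, s x - x ∈ E0)
    (hTN : ∀ x ∈ T, x ∈ N) (hss : ∀ (c : F) (x : V), s (c • x) = c • s x) :
    ∀ x, s x - x ∈ N := by
  intro x
  by_cases hxE : x ∈ E0
  · exact hTN _ (h1 x hxE)
  by_contra hQN
  by_cases hT : ∃ t ∈ T, t ≠ 0
  · obtain ⟨t, htT, ht0⟩ := hT
    have hNE : N ≤ E0 := le_of_mem_of_mem hV hb ht ht0 (hTN t htT) (h2 htT)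
    have : E0 = ⊤ := eq_top_of_le_of_mem hV hb hQN hNE (h3 x)
    rw [this] at hxE
    exact hxE trivial
  · push Not at hT
    have hfix := fix_of_disjoint hV hb ht s hsN E0 T h1 h3 (fun t ht _ => hT t ht)
    have hQ : s (s x - x) = s x - x := sub_eq_zero.mp (hT _ (h1 _ (h3 x)))
    -- the fixed submodule
    let S : Submodule F V :=
      { carrier := {y | s y = y}
        add_mem' := fun {a b} ha hb => by
          change s (a + b) = a + b
          rw [map_add, show s a = a from ha, show s b = b from hb]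
        zero_mem' := map_zero s
        smul_mem' := fun c a ha => by
          change s (c • a) = c • a
          rw [hss, show s a = a from ha] }
    have hS : S = ⊤ := eq_top_of_le_of_mem hV hb hQN (S := S) (fun y hy => hfix y hy) hQ
    have hx : x ∈ S := by rw [hS]; trivial
    apply hQN
    rw [show s x = x from hx, sub_self]
    exact N.zero_mem

end LinAlg

local notation "Qb" => AlgebraicClosure ℚ

variable {W₀ : WeierstrassCurve ℤ} {E : WeierstrassCurve ℚ}

lemma isOpen_of_fix (hE : W₀.map (Int.castRingHom ℚ) = E) (hΔ : W₀.Δ ≠ 0) {p : ℕ} (hp : p.Prime)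
    (H : Subgroup (Qb ≃ₐ[ℚ] Qb))
    (h : ∀ σ : Qb ≃ₐ[ℚ] Qb, (∀ x : Submodule.torsionBy ℤ (E⁄Qb).Point p, σ • x = x) → σ ∈ H) :
    IsOpen (H : Set (Qb ≃ₐ[ℚ] Qb)) := by
  have hell := isElliptic_of_Δ hE hΔ
  obtain ⟨L, hL, hfix⟩ := galoisRepModuleEnd_factorsThroughFiniteLevel E hp.ne_zero
  have hle : L.fixingSubgroup ≤ H := by
    intro σ hσ
    apply h
    intro x
    have h1 := hfix σ ((IntermediateField.mem_fixingSubgroup_iff L σ).mp hσ)
    exact LinearMap.congr_fun h1 x
  exact Subgroup.isOpen_mono hle (IntermediateField.fixingSubgroup_isOpen L)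

/-- **Main theorem.** -/
theorem fix_or_cofix (hE : W₀.map (Int.castRingHom ℚ) = E) (hΔ : W₀.Δ ≠ 0)
    (hss : ∀ q : ℕ, q.Prime → (q : ℤ) ∣ W₀.Δ → ¬ (q : ℤ) ∣ W₀.c₄) {p : ℕ} (hp : p.Prime)
    (hp2 : p ≠ 2) {N : Submodule (ZMod p) (Submodule.torsionBy ℤ (E⁄Qb).Point p)}
    (hN : IsGaloisStable (K := Qb) ℚ N) (hb : N ≠ ⊥) (ht : N ≠ ⊤) :
    (∀ σ : Qb ≃ₐ[ℚ] Qb, ∀ x ∈ N, σ • x = x) ∨
    (∀ σ : Qb ≃ₐ[ℚ] Qb, ∀ x : Submodule.torsionBy ℤ (E⁄Qb).Point p, σ • x - x ∈ N) := by
  have hfact : Fact p.Prime := ⟨hp⟩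
  have hell := isElliptic_of_Δ hE hΔ
  have hrank := finrank_torsionBy_rat E hp.ne_zero hp.ne_one
  -- integrality
  have hint : ∀ (A : ValuationSubring Qb) (x : Qb), IsIntegral ℤ x → x ∈ A := by
    intro A x hx
    have hA : IsIntegrallyClosedIn A Qb := inferInstance
    have h2 : IsIntegral A x := hx.tower_top
    obtain ⟨y, hy⟩ := IsIntegralClosure.isIntegral_iff (A := A) (R := A) (B := Qb) |>.mp h2
    rw [← hy]; exact y.2
  rcases dichotomy hE hΔ hp hp2 hN with hdich | hdich
  · left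
    let H : Subgroup (Qb ≃ₐ[ℚ] Qb) :=
      { carrier := {σ | ∀ x ∈ N, σ • x = x}
        mul_mem' := fun {a b} ha hb x hx => by
          rw [mul_smul, hb x hx, ha x hx]
        one_mem' := fun x _ => one_smul _ x
        inv_mem' := fun {a} ha x hx => by
          rw [inv_smul_eq_iff, ha x hx] }
    have hH : H.Normal := by
      constructor
      intro σ hσ g x hx
      rw [mul_smul, mul_smul, hσ (g⁻¹ • x) (hN _ _ hx), smul_inv_smul]
    have hopen : IsOpen (H : Set (Qb ≃ₐ[ℚ] Qb)) :=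
      isOpen_of_fix hE hΔ hp H (fun σ h x _ => h x)
    have htop := Fermat.Agent.LOC.Minkowski.eq_top_of_inertia_le H hopen ?_
    · intro σ
      have : σ ∈ H := by rw [htop]; trivial
      exact this
    · intro q hq A hA σ hσ
      obtain ⟨E0, l1, l2, l3⟩ := exists_local hE hq (hss q hq) A hA hσ
      refine fix_of_disjoint hrank hb ht (DistribSMul.toAddMonoidHom _ σ) (hN σ)
        (AddSubgroup.toZModSubmodule p
          (E0.comap (Submodule.torsionBy ℤ (E⁄Qb).Point p).subtype.toAddMonoidHom))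
        {P | (P : (E⁄Qb).Point) = 0 ∨ ∃ x y h, (P : (E⁄Qb).Point) = .some x y h ∧ x ∉ A} ?_ ?_ ?_
      · intro x hx
        exact l1 _ hx
      · intro x
        exact l3 _
      · rintro x (hx | ⟨a, b, h, hx, hxA⟩) hxN
        · exact Subtype.ext hx
        · exact absurd (hint A a (hdich x hxN a b h hx)) hxA
  · right
    let H : Subgroup (Qb ≃ₐ[ℚ] Qb) :=
      { carrier := {σ | ∀ x : Submodule.torsionBy ℤ (E⁄Qb).Point p, σ • x - x ∈ N}
        mul_mem' := fun {a b} ha hb x => by
          have h1 := ha (b • x)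
          have h2 := hb x
          have := N.add_mem h1 h2
          rwa [sub_add_sub_cancel, ← mul_smul] at this
        one_mem' := fun x => by rw [one_smul, sub_self]; exact N.zero_mem
        inv_mem' := fun {a} ha x => by
          have h1 := ha (a⁻¹ • x)
          rw [smul_inv_smul] at h1
          rw [← neg_sub]
          exact N.neg_mem h1 }
    have hH : H.Normal := by
      constructor
      intro σ hσ g x
      have h1 := hN g _ (hσ (g⁻¹ • x))
      rw [smul_sub, smul_inv_smul, ← mul_smul, ← mul_smul] at h1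
      exact h1
    have hopen : IsOpen (H : Set (Qb ≃ₐ[ℚ] Qb)) :=
      isOpen_of_fix hE hΔ hp H (fun σ h x => by rw [h x, sub_self]; exact N.zero_mem)
    have htop := Fermat.Agent.LOC.Minkowski.eq_top_of_inertia_le H hopen ?_
    · intro σ
      have : σ ∈ H := by rw [htop]; trivial
      exact this
    · intro q hq A hA σ hσ
      obtain ⟨E0, l1, l2, l3⟩ := exists_local hE hq (hss q hq) A hA hσ
      refine sub_mem_of_le hrank hb ht (DistribSMul.toAddMonoidHom _ σ) (hN σ)
        (AddSubgroup.toZModSubmodule p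
          (E0.comap (Submodule.torsionBy ℤ (E⁄Qb).Point p).subtype.toAddMonoidHom))
        {P | (P : (E⁄Qb).Point) = 0 ∨ ∃ x y h, (P : (E⁄Qb).Point) = .some x y h ∧ x ∉ A}
        ?_ ?_ ?_ ?_ ?_
      · intro x hx
        exact l1 _ hx
      · rintro x (hx | ⟨a, b, h, hx, hxA⟩)
        · change (x : (E⁄Qb).Point) ∈ E0
          rw [hx]; exact zero_mem _
        · change (x : (E⁄Qb).Point) ∈ E0
          rw [hx]; exact l2 a b h hxA
      · intro x
        exact l3 _
      · rintro x (hx | ⟨a, b, h, hx, hxA⟩)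
        · have : x = 0 := Subtype.ext hx
          rw [this]; exact N.zero_mem
        · by_contra hxN
          exact absurd (hint A a (hdich x hxN a b h hx)) hxA
      · intro c x
        exact ZMod.map_smul (DistribSMul.toAddMonoidHom _ σ :
          Submodule.torsionBy ℤ (E⁄Qb).Point p →+ Submodule.torsionBy ℤ (E⁄Qb).Point p) c x

end Fermat.Agent.S13Lib
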