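import Mathlib
import Fermat.Agent.EllRed.Component
import Fermat.Agent.ECRed.Nodal

set_option autoImplicit false

/-!
# Torsion points near the node at `2` of `y² + xy = x³ + a₂x² + a₄x`
-/

open WeierstrassCurve WeierstrassCurve.Affine WeierstrassCurve.Affine.Point
open Fermat.Agent.EllTorsion Fermat.Agent.EllRed Fermat.Agent.ECRed

namespace Fermat.Agent.S13Lib

variable {K Γ₀ : Type*} [Field K] [LinearOrderedCommGroupWithZero Γ₀] {v : Valuation K Γ₀}
  {W : WeierstrassCurve K}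

/-- A Weierstrass curve of the form `y² + xy = x³ + a₂x² + a₄x`. -/
structure FreyForm (W : WeierstrassCurve K) : Prop where
  a₁ : W.a₁ = 1
  a₃ : W.a₃ = 0
  a₆ : W.a₆ = 0

namespace FreyForm

lemma b₂ (hW : FreyForm W) : W.b₂ = 1 + 4 * W.a₂ := by
  rw [WeierstrassCurve.b₂, hW.a₁]; ring

lemma b₄ (hW : FreyForm W) : W.b₄ = 2 * W.a₄ := by
  rw [WeierstrassCurve.b₄, hW.a₃]; ring

lemma b₆ (hW : FreyForm W) : W.b₆ = 0 := by
  rw [WeierstrassCurve.b₆, hW.a₃, hW.a₆]; ring

lemma b₈ (hW : FreyForm W) : W.b₈ = -W.a₄ ^ 2 := by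
  rw [WeierstrassCurve.b₈, hW.a₃, hW.a₆]; ring

lemma nodeAtZero (hW : FreyForm W) (h2 : v W.a₂ ≤ 1) (h4 : v W.a₄ < 1) : NodeAtZero v W where
  int :=
    { a₁ := by rw [hW.a₁, _root_.map_one]
      a₂ := h2
      a₃ := by rw [hW.a₃, _root_.map_zero]; exact zero_le
      a₄ := h4.le
      a₆ := by rw [hW.a₆, _root_.map_zero]; exact zero_le }
  b₄ := by rw [hW.b₄]; exact (vmul_one (vofNat 2) le_rfl).trans_lt h4
  b₆ := by rw [hW.b₆, _root_.map_zero]; exact zero_lt_one
  b₈ := by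
    rw [hW.b₈, Valuation.map_neg, map_pow]
    exact pow_lt_one₀ zero_le h4 two_ne_zero

variable [DecidableEq K] [W.IsElliptic]

/-- Product formula. -/
lemma xc_add_mul_xc_sub (hW : FreyForm W) {P Q : W.toAffine.Point} (hP : P ≠ 0) (hQ : Q ≠ 0)
    (h1 : P ≠ Q) (h2 : P ≠ -Q) :
    xc (P + Q) * xc (P - Q) * (xc P - xc Q) ^ 2 = (xc P * xc Q - W.a₄) ^ 2 := by
  obtain ⟨c, hc, e⟩ := exists_addSubEval_sym2x P Q
  have h3 : P + Q ≠ 0 := fun h => h2 (eq_neg_of_add_eq_zero_left h)
  have h4 : P - Q ≠ 0 := sub_ne_zero.mpr h1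
  rcases P with _ | ⟨x₁, y₁, h₁⟩
  · exact absurd rfl hP
  rcases Q with _ | ⟨x₂, y₂, h₂⟩
  · exact absurd rfl hQ
  generalize hR : Point.some x₁ y₁ h₁ + Point.some x₂ y₂ h₂ = R at *
  generalize hS : Point.some x₁ y₁ h₁ - Point.some x₂ y₂ h₂ = S at *
  rcases R with _ | ⟨x₃, y₃, h₃⟩
  · exact absurd rfl h3
  rcases S with _ | ⟨x₄, y₄, h₄⟩
  · exact absurd rfl h4
  rw [sym2x_some_some, sym2x_some_some, addSubEval_eq] at e
  have e0 := congrFun e 0
  have e2 := congrFun e 2
  simp only [Matrix.cons_val_zero, Matrix.cons_val, Pi.smul_apply, smul_eq_mul] at e0 e2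
  simp only [xc_some]
  rw [hW.b₄, hW.b₆, hW.b₈] at e0
  linear_combination (x₃ * x₄) * e2 - e0

/-- Duplication formula. -/
lemma xc_two (hW : FreyForm W) {P : W.toAffine.Point} (hP : P ≠ 0) (h2 : P + P ≠ 0) :
    xc (P + P) * (xc P * (W.b₂ * xc P + (4 * xc P ^ 2 + 4 * W.a₄))) =
      (xc P ^ 2 - W.a₄) ^ 2 := by
  obtain ⟨c, hc, e⟩ := exists_addSubEval_sym2x P P
  rw [sub_self] at e
  rcases P with _ | ⟨x₁, y₁, h₁⟩
  · exact absurd rfl hP
  generalize hR : Point.some x₁ y₁ h₁ + Point.some x₁ y₁ h₁ = R at *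
  rcases R with _ | ⟨x₃, y₃, h₃⟩
  · exact absurd rfl h2
  rw [sym2x_some_some, sym2x_some_zero, addSubEval_eq] at e
  have e0 := congrFun e 0
  have e1 := congrFun e 1
  simp only [Matrix.cons_val_zero, Matrix.cons_val_one, Pi.smul_apply, smul_eq_mul] at e0 e1
  simp only [xc_some]
  rw [hW.b₄, hW.b₆, hW.b₈] at e0
  rw [hW.b₄, hW.b₆] at e1
  linear_combination x₃ * e1 - e0

end FreyForm

variable [DecidableEq K] [W.IsElliptic]

/-- Main statement of the file. -/
theorem twoAdic (hW : FreyForm W) (h2 : v W.a₂ ≤ 1) (h4 : v W.a₄ < 1) (h40 : W.a₄ ≠ 0)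
    (hv2 : v (2 : K) < 1) {p : ℕ} (hp : p.Prime) (hp5 : 5 ≤ p) (hvp : v (p : K) = 1)
    {P : W.toAffine.Point} (hP : p • P = 0) (hP0 : P ≠ 0)
    (hrat : ∀ (k : ℕ) (x y : K) (h : W.toAffine.Nonsingular x y), k • P = Point.some x y h →
      (v x < 1 ∨ v (x - 1) < 1) ∧ (v y < 1 ∨ v (y - 1) < 1)) :
    ∃ k : ℕ, v (xc (k • P)) ^ p = v W.a₄ ^ 2 := by
  have hNode := hW.nodeAtZero h2 h4
  have hI : IntCoeff v W := ⟨hNode.int.a₁, hNode.int.a₂, hNode.int.a₃, hNode.int.a₄, hNode.int.a₆⟩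
  have hμ : 0 < v W.a₄ := by rwa [Valuation.pos_iff]
  have hb2 : v W.b₂ = 1 := by
    rw [hW.b₂, Valuation.map_add_eq_of_lt_left v, _root_.map_one]
    rw [_root_.map_one, show (4 : K) = 2 * 2 by norm_num, map_mul, map_mul]
    calc v 2 * v 2 * v W.a₂ ≤ v 2 * 1 * 1 := mul_le_mul' (mul_le_mul' le_rfl hv2.le) h2
      _ = v 2 := by rw [mul_one, mul_one]
      _ < 1 := hv2
  -- multiples
  have hord : ∀ k : ℕ, 1 ≤ k → k < p → k • P ≠ 0 := by
    intro k hk1 hkp h0
    have hord := addOrderOf_eq_prime hP hP0 (hp := ⟨hp⟩)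
    have := addOrderOf_dvd_of_nsmul_eq_zero h0
    rw [hord] at this
    exact absurd (Nat.le_of_dvd (by omega) this) (by omega)
  have htor : ∀ k : ℕ, p • (k • P) = 0 := by
    intro k; rw [smul_comm, hP, smul_zero]
  have hmodk : ∀ k : ℕ, k • P = (k % p) • P := by
    intro k
    conv_lhs => rw [← Nat.div_add_mod k p, add_smul, mul_comm, mul_smul, hP, smul_zero, zero_add]
  have hint : ∀ (k : ℕ) (x y : K) (h : W.toAffine.Nonsingular x y),
      k • P = Point.some x y h → v x ≤ 1 ∧ v y ≤ 1 := by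
    intro k x y h e
    exact v_le_one_of_torsion hI h hvp (by rw [← e]; exact htor k)
  -- all multiples reduce to the node
  have hns : ∀ k : ℕ, 1 ≤ k → k < p → v (xc (k • P)) < 1 := by
    intro k hk1 hkp
    by_contra hge
    have hR0 := hord k hk1 hkp
    have hRt := htor k
    have hcop : ¬ p ∣ 2 * k := by
      intro h
      rcases hp.dvd_mul.mp h with h | h
      · exact absurd (Nat.le_of_dvd (by omega) h) (by omega)
      · exact absurd (Nat.le_of_dvd (by omega) h) (by omega)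
    have h2k0 : (2 * k) • P ≠ 0 := by
      rw [hmodk]
      refine hord _ ?_ (Nat.mod_lt _ (by omega))
      rw [Nat.one_le_iff_ne_zero]
      intro h; exact hcop (Nat.dvd_of_mod_eq_zero h)
    have e2k : (2 * k) • P = k • P + k • P := by rw [mul_smul, two_nsmul]
    have ratk := hrat k
    have rat2k := hrat (2 * k)
    have int2k := hint (2 * k)
    have intk := hint k
    rw [e2k] at h2k0 rat2k int2k
    have hRt2 : p • (k • P + k • P) = 0 := by rw [smul_add, hRt, add_zero]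
    generalize hR : k • P = R at *
    rcases R with _ | ⟨x, y, h⟩
    · exact absurd rfl hR0
    rw [xc_some] at hge
    have hE0 : InE0 v (Point.some x y h) := (inE0_some h).mpr (not_lt.mp hge)
    have hE02 := (inE0_add_sub_of_inE0 hNode hE0 hE0).1
    obtain ⟨hx, hy⟩ := intk x y h rfl
    obtain ⟨rx, ry⟩ := ratk x y h rfl
    have rx1 := rx.resolve_left hge
    have hxv : v x = 1 := le_antisymm hx (not_lt.mp hge)
    generalize hS : Point.some x y h + Point.some x y h = S at *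
    rcases S with _ | ⟨x', y', h'⟩
    · exact absurd rfl h2k0
    rw [inE0_some] at hE02
    obtain ⟨hx', hy'⟩ := int2k x' y' h' rfl
    obtain ⟨rx', ry'⟩ := rat2k x' y' h' rfl
    have rx1' := rx'.resolve_left (not_lt.mpr hE02)
    have hxx' : v (x - x') < 1 := by
      rw [show x - x' = (x - 1) - (x' - 1) by ring]; exact vsub_lt rx1 rx1'
    have hnsx : v (2 * y + W.a₁ * x + W.a₃) = 1 := by
      rw [hW.a₁, hW.a₃, show (2 : K) * y + 1 * x + 0 = x + 2 * y by ring,
        Valuation.map_add_eq_of_lt_left v, hxv]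
      rw [hxv]; exact (vmul_one' le_rfl hy).trans_lt hv2
    -- the two cases
    have close1 : v (y - y') < 1 → False := by
      intro hyy
      have := eq_of_close hI h h' hx hy hxx' hyy (Or.inl hnsx) hvp hRt hRt2
      rw [← hS] at this
      have h0 : (Point.some x y h : W.toAffine.Point) = 0 := by simpa using this.symm
      exact hR0 h0
    have close2 : v (y + x + y') < 1 → False := by
      intro hyy
      have hneg : W.toAffine.negY x y = -y - x := by rw [negY, hW.a₁, hW.a₃]; ring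
      have hn := (nonsingular_neg (W' := W.toAffine) x y).mpr h
      have hny : v (W.toAffine.negY x y) ≤ 1 := by
        rw [hneg]; exact vsub (by rwa [Valuation.map_neg]) hx
      have := eq_of_close hI hn h' hx hny hxx' (by
        rw [hneg, show -y - x - y' = -(y + x + y') by ring, Valuation.map_neg]; exact hyy)
        (Or.inl (by
          rw [hneg, hW.a₁, hW.a₃, show (2 : K) * (-y - x) + 1 * x + 0 = -(x + 2 * y) by ring,
            Valuation.map_neg, Valuation.map_add_eq_of_lt_left v, hxv]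
          rw [hxv]; exact (vmul_one' le_rfl hy).trans_lt hv2)) hvp
        (by rw [← neg_some h, smul_neg, hRt, _root_.neg_zero]) hRt2
      rw [← neg_some h, ← hS] at this
      have h3 : (3 : ℕ) • (Point.some x y h : W.toAffine.Point) = 0 := by
        have e3 : (3 : ℕ) • (Point.some x y h : W.toAffine.Point) =
          (Point.some x y h + Point.some x y h) + Point.some x y h := by
          rw [show (3 : ℕ) = 2 + 1 from rfl, succ_nsmul, two_nsmul]
        rw [e3, ← this, neg_add_cancel]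
      have hd := addOrderOf_dvd_of_nsmul_eq_zero h3
      rw [addOrderOf_eq_prime hRt hR0 (hp := ⟨hp⟩)] at hd
      exact absurd (Nat.le_of_dvd (by omega) hd) (by omega)
    rcases ry with ry | ry <;> rcases ry' with ry' | ry'
    · exact close1 (vsub_lt ry ry')
    · apply close2
      rw [show y + x + y' = y + (x - 1) + (y' - 1) + 2 by ring]
      exact vadd_lt (vadd_lt (vadd_lt ry rx1) ry') hv2
    · apply close2
      rw [show y + x + y' = (y - 1) + (x - 1) + y' + 2 by ring]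
      exact vadd_lt (vadd_lt (vadd_lt ry rx1) ry') hv2
    · exact close1 (by rw [show y - y' = (y - 1) - (y' - 1) by ring]; exact vsub_lt ry ry')
  have hgt : ∀ k : ℕ, 1 ≤ k → k < p → v W.a₄ < v (xc (k • P)) := by
    intro k hk1 hkp
    by_contra hle
    push Not at hle
    have hcop : ¬ p ∣ 2 * k := by
      intro h
      rcases hp.dvd_mul.mp h with h | h
      · exact absurd (Nat.le_of_dvd (by omega) h) (by omega)
      · exact absurd (Nat.le_of_dvd (by omega) h) (by omega)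
    have hmod : 1 ≤ (2 * k) % p := by
      rw [Nat.one_le_iff_ne_zero]
      intro h; exact hcop (Nat.dvd_of_mod_eq_zero h)
    have h2k : k • P + k • P = ((2 * k) % p) • P := by
      rw [← hmodk, mul_smul, two_nsmul]
    have hlt := Nat.mod_lt (2 * k) (show 0 < p by omega)
    have h := hW.xc_two (hord k hk1 hkp) (by rw [h2k]; exact hord _ hmod hlt)
    rw [h2k] at h
    have hx' := hns _ hmod hlt
    have hx := hns k hk1 hkp
    generalize xc (k • P) = x at *
    generalize xc (((2 * k) % p) • P) = x' at *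
    have e1 : v ((x ^ 2 - W.a₄) ^ 2) = v W.a₄ * v W.a₄ := by
      rw [map_pow, pow_two, Valuation.map_sub_eq_of_lt_right v]
      rw [map_pow, pow_two]
      calc v x * v x ≤ v x * v W.a₄ := mul_le_mul' le_rfl hle
        _ < 1 * v W.a₄ := mul_lt_mul_of_pos_right hx hμ
        _ = v W.a₄ := one_mul _
    have e2 : v (x' * (x * (W.b₂ * x + (4 * x ^ 2 + 4 * W.a₄)))) < v W.a₄ * v W.a₄ := by
      rw [map_mul]
      have : v (x * (W.b₂ * x + (4 * x ^ 2 + 4 * W.a₄))) ≤ v W.a₄ * v W.a₄ := by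
        rw [map_mul]
        refine mul_le_mul' hle (vadd (vmul_one hb2.le hle) (vadd ?_ (vmul_one (vofNat 4) le_rfl)))
        refine vmul_one (vofNat 4) ?_
        rw [map_pow, pow_two]
        exact (mul_le_mul' hle hx.le).trans (by rw [mul_one])
      calc v x' * _ ≤ v x' * (v W.a₄ * v W.a₄) := mul_le_mul' le_rfl this
        _ < 1 * (v W.a₄ * v W.a₄) := mul_lt_mul_of_pos_right hx' (mul_pos hμ hμ)
        _ = _ := one_mul _
    rw [h, e1] at e2
    exact lt_irrefl _ e2
  -- choose a multiple with maximal valuation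
  obtain ⟨k₀, hk₀, hmax⟩ := Finset.exists_max_image (Finset.Ico 1 p) (fun k => v (xc (k • P)))
    ⟨1, by simp; omega⟩
  rw [Finset.mem_Ico] at hk₀
  refine ⟨k₀, ?_⟩
  obtain ⟨Q, hQ⟩ : ∃ Q, Q = k₀ • P := ⟨_, rfl⟩
  rw [← hQ] at hmax ⊢
  -- multiples of Q
  have hmul : ∀ k : ℕ, 1 ≤ k → k < p → ∃ j : ℕ, 1 ≤ j ∧ j < p ∧ k • Q = j • P := by
    intro k hk1 hkp
    refine ⟨(k * k₀) % p, ?_, Nat.mod_lt _ (by omega), ?_⟩
    · rw [Nat.one_le_iff_ne_zero]
      intro h
      rcases hp.dvd_mul.mp (Nat.dvd_of_mod_eq_zero h) with h | h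
      · exact absurd (Nat.le_of_dvd (by omega) h) (by omega)
      · exact absurd (Nat.le_of_dvd (by omega) h) (by omega)
    · rw [hQ, ← mul_smul, ← hmodk]
  have hQt : p • Q = 0 := by rw [hQ]; exact htor k₀
  have hQk : ∀ k : ℕ, 1 ≤ k → k < p → k • Q ≠ 0 := by
    intro k hk1 hkp
    obtain ⟨j, hj1, hjp, hj⟩ := hmul k hk1 hkp
    rw [hj]; exact hord j hj1 hjp
  have h1Q : (1 : ℕ) • Q = Q := one_smul _ _
  -- distinctness
  have hne : ∀ k : ℕ, 2 ≤ k → k + 1 < p → k • Q ≠ Q ∧ k • Q ≠ -Q := by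
    intro k hk1 hkp
    constructor
    · intro h
      apply hQk (k - 1) (by omega) (by omega)
      obtain ⟨j, rfl⟩ : ∃ j, k = j + 1 := ⟨k - 1, by omega⟩
      rw [succ_nsmul] at h
      rw [Nat.add_sub_cancel]
      exact left_eq_add.mp (by rw [add_comm] at h; exact h.symm)
    · intro h
      apply hQk (k + 1) (by omega) (by omega)
      rw [succ_nsmul, h, neg_add_cancel]
  have hseq := seq_lemma (v := v) (x := fun k => xc (k • Q)) (a := W.a₄) (p := p) (by omega)
    ?_ hμ ?_ ?_ ?_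
  · simpa only [one_smul] using hseq
  · intro k hk1 hkp
    simp only [one_smul]
    obtain ⟨j, hj1, hjp, hj⟩ := hmul k hk1 hkp
    rw [hj]
    refine ⟨hgt j hj1 hjp, hns j hj1 hjp, hmax j ?_⟩
    rw [Finset.mem_Ico]; exact ⟨hj1, hjp⟩
  · -- duplication
    simp only [one_smul]
    have hQ0 : Q ≠ 0 := by rw [← h1Q]; exact hQk 1 le_rfl (by omega)
    have hQQ : Q + Q = 2 • Q := (two_nsmul Q).symm
    have h := hW.xc_two hQ0 (by rw [hQQ]; exact hQk 2 (by omega) (by omega))
    rw [hQQ] at h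
    have hQ1 : v (xc Q) < 1 := by rw [hQ]; exact hns k₀ hk₀.1 hk₀.2
    have hQμ : v W.a₄ < v (xc Q) := by rw [hQ]; exact hgt k₀ hk₀.1 hk₀.2
    have hx0 : 0 < v (xc Q) := hμ.trans hQμ
    have e2 : v (W.b₂ * xc Q + (4 * xc Q ^ 2 + 4 * W.a₄)) = v (xc Q) := by
      rw [Valuation.map_add_eq_of_lt_left v, map_mul, hb2, one_mul]
      rw [map_mul, hb2, one_mul]
      refine vadd_lt ((vmul_one (vofNat 4) le_rfl).trans_lt ?_)
        ((vmul_one (vofNat 4) le_rfl).trans_lt hQμ)
      rw [map_pow, pow_two]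
      calc v (xc Q) * v (xc Q) < 1 * v (xc Q) := mul_lt_mul_of_pos_right hQ1 hx0
        _ = v (xc Q) := one_mul _
    have h5 := congrArg v h
    rw [map_mul, map_mul, e2, map_pow, ← pow_two] at h5
    exact h5
  · intro k hk1 hkp
    simp only [one_smul]
    obtain ⟨h1, h3⟩ := hne k hk1 hkp
    have h := hW.xc_add_mul_xc_sub (hQk k (by omega) (by omega))
      (by rw [← h1Q]; exact hQk 1 le_rfl (by omega)) h1 h3
    have e1 : k • Q + Q = (k + 1) • Q := (succ_nsmul Q k).symm
    have e2 : k • Q - Q = (k - 1) • Q := by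
      obtain ⟨j, rfl⟩ : ∃ j, k = j + 1 := ⟨k - 1, by omega⟩
      rw [succ_nsmul, Nat.add_sub_cancel, add_sub_cancel_right]
    rw [e1, e2] at h
    have := congrArg v h
    rwa [map_mul, map_mul, map_pow, map_pow] at this
  · simp only [one_smul]
    have : (p - 1) • Q = -Q := by
      have h := hQt
      obtain ⟨j, rfl⟩ : ∃ j, p = j + 1 := ⟨p - 1, by omega⟩
      rw [succ_nsmul] at h
      rw [Nat.add_sub_cancel]
      exact eq_neg_of_add_eq_zero_left h
    rw [this, xc_neg]

end Fermat.Agent.S13Lib
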