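import Mathlib
import Fermat.Agent.S13Lib.TwoAdic
import Fermat.Agent.S13Lib.Dichotomy
import Fermat.Agent.ECRed.Inertia
import Fermat.Agent.EllTorsion.Frey
import Fermat.Agent.FrobExists
import Fermat.Agent.QbarInst

set_option autoImplicit false

/-!
# The Frey curve has no rational point of order `p`
-/

open WeierstrassCurve WeierstrassCurve.Affine WeierstrassCurve.Affine.Point
open Fermat.Agent.EllTorsion Fermat.Agent.EllRed Fermat.Agent.ECRed

namespace Fermat.Agent.S13Lib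

local notation "Qb" => AlgebraicClosure ℚ

section Two

variable {A : ValuationSubring Qb} (hA : A.LiesOverPrime 2)

include hA

lemma v_int_two {n : ℤ} (hn : ¬ (2 : ℤ) ∣ n) : A.valuation (n : Qb) = 1 :=
  valuation_int_eq_one A hA
    (((Nat.prime_iff_prime_int.mp Nat.prime_two).coprime_iff_not_dvd.mpr hn).symm)

lemma v_int_two_lt {n : ℤ} (hn : (2 : ℤ) ∣ n) : A.valuation (n : Qb) < 1 :=
  valuation_int_lt_one A hA hn

lemma den_odd_of_v_le_one {r : ℚ} (hr : A.valuation (r : Qb) ≤ 1) : ¬ (2 : ℤ) ∣ (r.den : ℤ) := by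
  intro hd
  have hn : ¬ (2 : ℤ) ∣ r.num := by
    intro hn
    have h1 : 2 ∣ r.num.natAbs := Int.natCast_dvd.mp hn
    have h2 : 2 ∣ r.den := by exact_mod_cast hd
    have := Nat.dvd_gcd h1 h2
    rw [Nat.Coprime.gcd_eq_one r.reduced] at this
    omega
  have h1 := v_int_two hA hn
  have h2 := v_int_two_lt hA hd
  have h3 : (r : Qb) * ((r.den : ℤ) : Qb) = ((r.num : ℤ) : Qb) := by
    have := Rat.mul_den_eq_num r
    have h4 : ((r * r.den : ℚ) : Qb) = ((r.num : ℚ) : Qb) := by rw [this]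
    push_cast at h4 ⊢
    exact h4
  have h4 : A.valuation ((r : Qb) * ((r.den : ℤ) : Qb)) < 1 := by
    rw [map_mul]
    calc A.valuation (r : Qb) * A.valuation ((r.den : ℤ) : Qb)
        ≤ 1 * A.valuation ((r.den : ℤ) : Qb) := mul_le_mul' hr le_rfl
      _ < 1 := by rw [one_mul]; exact h2
  rw [h3, h1] at h4
  exact lt_irrefl _ h4

lemma rat_mod_two {r : ℚ} (hr : A.valuation (r : Qb) ≤ 1) :
    A.valuation (r : Qb) < 1 ∨ A.valuation ((r : Qb) - 1) < 1 := by
  have hd := den_odd_of_v_le_one hA hr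
  have h1 := v_int_two hA hd
  have h3 : (r : Qb) * ((r.den : ℤ) : Qb) = ((r.num : ℤ) : Qb) := by
    have := Rat.mul_den_eq_num r
    have h4 : ((r * r.den : ℚ) : Qb) = ((r.num : ℚ) : Qb) := by rw [this]
    push_cast at h4 ⊢
    exact h4
  by_cases hn : (2 : ℤ) ∣ r.num
  · left
    have := congrArg A.valuation h3
    rw [map_mul, h1, mul_one] at this
    rw [this]
    exact v_int_two_lt hA hn
  · right
    have h5 : ((r : Qb) - 1) * ((r.den : ℤ) : Qb) = ((r.num - (r.den : ℤ) : ℤ) : Qb) := by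
      rw [sub_mul, h3]; push_cast; ring
    have := congrArg A.valuation h5
    rw [map_mul, h1, mul_one] at this
    rw [this]
    apply v_int_two_lt hA
    omega

lemma padicValRat_eq_zero_of_v {s : ℚ} (hs : A.valuation (s : Qb) = 1) : padicValRat 2 s = 0 := by
  have hd := den_odd_of_v_le_one hA hs.le
  have h1 := v_int_two hA hd
  have h3 : (s : Qb) * ((s.den : ℤ) : Qb) = ((s.num : ℤ) : Qb) := by
    have := Rat.mul_den_eq_num s
    have h4 : ((s * s.den : ℚ) : Qb) = ((s.num : ℚ) : Qb) := by rw [this]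
    push_cast at h4 ⊢
    exact h4
  have hn : ¬ (2 : ℤ) ∣ s.num := by
    intro hn
    have := congrArg A.valuation h3
    rw [map_mul, h1, mul_one, hs] at this
    exact absurd (v_int_two_lt hA hn) (by rw [← this]; exact lt_irrefl _)
  rw [padicValRat_def, padicValInt.eq_zero_of_not_dvd (by exact_mod_cast hn),
    padicValNat.eq_zero_of_not_dvd (by exact_mod_cast hd)]
  simp

end Two

lemma exists_rat_of_fixed {x : Qb} (h : ∀ σ : Qb ≃ₐ[ℚ] Qb, σ x = x) : ∃ r : ℚ, x = (r : Qb) := by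
  obtain ⟨r, hr⟩ := (InfiniteGalois.mem_range_algebraMap_iff_fixed (k := ℚ) x).mpr h
  exact ⟨r, by rw [← hr]; simp⟩

/-- The Frey curve has no rational point of order `p`. -/
theorem no_fixed_torsion (P : FreyPackage) (Q : (P.freyCurve⁄Qb).Point) (hQ : P.p • Q = 0)
    (hfix : ∀ σ : Qb ≃ₐ[ℚ] Qb, σ • Q = Q) : Q = 0 := by
  by_contra hQ0
  obtain ⟨A, hA⟩ := Fermat.Agent.FrobExists.exists_liesOverPrime Qb Nat.prime_two
  have hE := FreyPackage.AgentFrey.map_freyCurveInt P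
  have hΔ := FreyPackage.AgentFrey.freyCurveInt_Δ_ne_zero P
  have hell := isElliptic_of_Δ hE hΔ
  have hell' : WeierstrassCurve.IsElliptic (P.freyCurve⁄Qb) := isElliptic_baseChange _
  have hmap := map_map_eq hE
  have ha₂ : (P.freyCurve⁄Qb).a₂ = ((P.freyCurveInt.a₂ : ℤ) : Qb) := by rw [hmap]; rfl
  have ha₄ : (P.freyCurve⁄Qb).a₄ = ((P.freyCurveInt.a₄ : ℤ) : Qb) := by rw [hmap]; rfl
  have hform : FreyForm (P.freyCurve⁄Qb) := by
    constructor
    · rw [hmap]; simp [FreyPackage.AgentFrey.freyCurveInt_a₁]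
    · rw [hmap]; simp [FreyPackage.AgentFrey.freyCurveInt_a₃]
    · rw [hmap]; simp [FreyPackage.AgentFrey.freyCurveInt_a₆]
  have h16 := FreyPackage.AgentFrey.sixteen_mul_a₄ P
  have hZ40 : P.freyCurveInt.a₄ ≠ 0 := by
    intro h0
    rw [h0, mul_zero] at h16
    have : P.a ^ P.p * P.b ^ P.p ≠ 0 := mul_ne_zero (pow_ne_zero _ P.ha0) (pow_ne_zero _ P.hb0)
    apply this
    linear_combination h16
  have h4dvd : (2 : ℤ) ∣ P.freyCurveInt.a₄ := by
    obtain ⟨k, hk⟩ := FreyPackage.AgentFrey.b_pow_dvd P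
    rw [hk] at h16
    exact ⟨-(P.a ^ P.p) * k, by linarith⟩
  have hp := P.pp
  have hp5 := P.hp5
  have hcop : Nat.Coprime P.p 2 := by
    rw [Nat.coprime_primes hp Nat.prime_two]; omega
  have hvp := valuation_nat_eq_one A hA hcop
  have h2' : A.valuation (P.freyCurve⁄Qb).a₂ ≤ 1 := by rw [ha₂]; exact v_int_le_one _
  have h4' : A.valuation (P.freyCurve⁄Qb).a₄ < 1 := by rw [ha₄]; exact v_int_two_lt hA h4dvd
  have h40' : (P.freyCurve⁄Qb).a₄ ≠ 0 := by rw [ha₄]; exact_mod_cast hZ40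
  have hv2 : A.valuation (2 : Qb) < 1 := by
    have := v_int_two_lt hA (n := 2) (dvd_refl _)
    simpa using this
  have hI : IntCoeff A.valuation (P.freyCurve⁄Qb) := by
    constructor
    · rw [hform.a₁, _root_.map_one]
    · exact h2'
    · rw [hform.a₃, _root_.map_zero]; exact zero_le
    · exact h4'.le
    · rw [hform.a₆, _root_.map_zero]; exact zero_le
  -- coordinates of multiples are rational
  have hrat : ∀ (k : ℕ) (x y : Qb) (h : (P.freyCurve⁄Qb).Nonsingular x y),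
      k • Q = Point.some x y h → (∃ r : ℚ, x = (r : Qb)) ∧ (∃ s : ℚ, y = (s : Qb)) := by
    intro k x y h e
    have hσ : ∀ σ : Qb ≃ₐ[ℚ] Qb, σ x = x ∧ σ y = y := by
      intro σ
      have h1 : σ • (k • Q) = k • Q := by
        rw [algEquiv_smul_def, map_nsmul, ← algEquiv_smul_def, hfix]
      rw [e, algEquiv_smul_def, Point.map_some, Point.some.injEq] at h1
      exact h1
    exact ⟨exists_rat_of_fixed fun σ => (hσ σ).1, exists_rat_of_fixed fun σ => (hσ σ).2⟩
  obtain ⟨k, hk⟩ := twoAdic hform h2' h4' h40' hv2 hp hp5 hvp hQ hQ0 (by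
    intro k x y h e
    obtain ⟨⟨r, hr⟩, ⟨s, hs⟩⟩ := hrat k x y h e
    have hkt : P.p • (Point.some x y h : (P.freyCurve⁄Qb).Point) = 0 := by
      rw [← e, ← mul_smul, mul_comm, mul_smul, hQ]; exact nsmul_zero k
    obtain ⟨hx, hy⟩ := v_le_one_of_torsion hI h hvp hkt
    rw [hr] at hx ⊢
    rw [hs] at hy ⊢
    exact ⟨rat_mod_two hA hx, rat_mod_two hA hy⟩)
  have hv40 : A.valuation (P.freyCurve⁄Qb).a₄ ≠ 0 := (Valuation.ne_zero_iff _).mpr h40'
  obtain ⟨r, hr⟩ : ∃ r : ℚ, xc (k • Q) = (r : Qb) := by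
    generalize hR : k • Q = R at hk
    rcases R with _ | ⟨x, y, h⟩
    · exact ⟨0, by simp [xc]⟩
    · obtain ⟨⟨r, hr⟩, -⟩ := hrat k x y h hR
      exact ⟨r, hr⟩
  rw [hr, ha₄] at hk
  rw [ha₄] at hv40
  have hr0 : r ≠ 0 := by
    rintro rfl
    rw [Rat.cast_zero, _root_.map_zero, zero_pow hp.ne_zero] at hk
    exact (pow_ne_zero 2 hv40) hk.symm
  have hs : A.valuation (((r ^ P.p / (P.freyCurveInt.a₄ : ℚ) ^ 2 : ℚ)) : Qb) = 1 := by
    push_cast
    rw [map_div₀, map_pow, map_pow, hk, div_self (pow_ne_zero 2 hv40)]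
  have hpad := padicValRat_eq_zero_of_v hA hs
  have hfact2 : Fact (Nat.Prime 2) := ⟨Nat.prime_two⟩
  have ha4Q : (P.freyCurveInt.a₄ : ℚ) ≠ 0 := by exact_mod_cast hZ40
  rw [padicValRat.div (pow_ne_zero _ hr0) (pow_ne_zero _ ha4Q), padicValRat.pow,
    padicValRat.pow] at hpad
  have haQ : (P.a : ℚ) ≠ 0 := by exact_mod_cast P.ha0
  have hbQ : (P.b : ℚ) ≠ 0 := by exact_mod_cast P.hb0
  have h16' : (2 : ℚ) ^ 4 * (P.freyCurveInt.a₄ : ℚ) = (-1) * ((P.a : ℚ) ^ P.p * (P.b : ℚ) ^ P.p) := by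
    have : ((16 * P.freyCurveInt.a₄ : ℤ) : ℚ) = ((- (P.a ^ P.p) * (P.b ^ P.p) : ℤ) : ℚ) := by
      rw [h16]
    push_cast at this
    linear_combination this
  have hval := congrArg (padicValRat 2) h16'
  rw [padicValRat.mul (by norm_num) ha4Q, padicValRat.pow,
    padicValRat.mul (by norm_num) (mul_ne_zero (pow_ne_zero _ haQ) (pow_ne_zero _ hbQ)),
    padicValRat.mul (pow_ne_zero _ haQ) (pow_ne_zero _ hbQ), padicValRat.pow,
    padicValRat.pow, padicValRat.neg, padicValRat.one] at hval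
  have h22 : padicValRat 2 2 = 1 := by
    have := padicValRat.self (p := 2) (by norm_num)
    simpa using this
  rw [h22] at hval
  generalize padicValRat 2 r = α at *
  generalize padicValRat 2 (P.freyCurveInt.a₄ : ℚ) = β at *
  generalize padicValRat 2 (P.a : ℚ) = γ at *
  generalize padicValRat 2 (P.b : ℚ) = δ at *
  have hdvd : (P.p : ℤ) ∣ 8 := by
    refine ⟨2 * (γ + δ) - α, ?_⟩
    push_cast at hpad hval
    linear_combination 2 * hval + hpad
  have h8 : P.p ∣ 8 := by exact_mod_cast hdvd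
  have h8' : P.p ∣ 2 := by
    have : (8 : ℕ) = 2 ^ 3 := by norm_num
    rw [this] at h8
    exact hp.dvd_of_dvd_pow h8
  have := Nat.le_of_dvd (by norm_num) h8'
  omega

end Fermat.Agent.S13Lib
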